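import Fermat.Agent.LT.T2.H941.SmoSpec

/-!
# Row LT, tower T2, station T2.10 (`SMO_AA`), leaf T2.10.16 `BookC` (helper333), OFF-MAIN

Registry row 1109.  Proves `Fermat.Agent.LT.T2.H941.BookC K` (= `Leaf16 K`) VERBATIM against
`LT/T2/H941/SmoSpec.lean` (helper941@8afa9067a, sha256 41255efa7193), for every number field `K`.

* `comm_of_local_triv333` : an element supported at the finite place `v` commutes with an element
  which is trivial at `v`;
* `mem_idealClosure_of_int333` : for `v ∤ 𝔫` the closure of `𝔫` in `K_v` contains `𝒪_v`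
  (route of helper129 `dense_ideal129`, re-proved here so that the closure is Mathlib + Spec only);
* `bookC333 : BookC K`, `leaf16_333 : Leaf16 K`.
-/

set_option autoImplicit false

open IsDedekindDomain NumberField IsDedekindDomain.HeightOneSpectrum
open Fermat.Agent.LT.H556.A0

noncomputable section

namespace Fermat.Agent.LT.T2.H333

open Fermat.Agent.LT.T2.H941

variable {K : Type} [Field K] [NumberField K]

/-! ## 1. Components -/

/-- The component at the finite place `v`. -/
def evF333 (v : HeightOneSpectrum (𝓞 K)) : Adl K →+* v.adicCompletion K :=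
  (RestrictedProduct.evalRingHom (fun v : HeightOneSpectrum (𝓞 K) => v.adicCompletion K) v).comp
    (RingHom.snd _ _)

/-- The component at the infinite place `w`. -/
def evI333 (w : InfinitePlace K) : Adl K →+* w.Completion :=
  (Pi.evalRingHom (fun w : InfinitePlace K => w.Completion) w).comp (RingHom.fst _ _)

theorem evF333_apply (v : HeightOneSpectrum (𝓞 K)) (x : Adl K) : evF333 v x = x.2 v := rfl

theorem evI333_apply (w : InfinitePlace K) (x : Adl K) : evI333 w x = x.1 w := rfl

/-- An adele is determined by its components. -/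
theorem adele_ext333 {x y : Adl K} (hI : ∀ w : InfinitePlace K, x.1 w = y.1 w)
    (hF : ∀ v : HeightOneSpectrum (𝓞 K), x.2 v = y.2 v) : x = y :=
  Prod.ext (funext hI) (RestrictedProduct.ext _ _ hF)

/-- A matrix over the adeles is determined by its components. -/
theorem adeleMatrix_ext333 {A B : Matrix (Fin 2) (Fin 2) (Adl K)}
    (hI : ∀ w : InfinitePlace K, A.map (evI333 w) = B.map (evI333 w))
    (hF : ∀ v : HeightOneSpectrum (𝓞 K), A.map (evF333 v) = B.map (evF333 v)) : A = B := by
  refine Matrix.ext fun i j => adele_ext333 (fun w => ?_) (fun v => ?_)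
  · exact congrFun (congrFun (hI w) i) j
  · exact congrFun (congrFun (hF v) i) j

theorem finComp_eq_map333 (v : HeightOneSpectrum (𝓞 K)) (g : G K) :
    finComp v g = (g : Matrix (Fin 2) (Fin 2) (Adl K)).map (evF333 v) := rfl

theorem finComp_mul333 (v : HeightOneSpectrum (𝓞 K)) (g h : G K) :
    finComp v (g * h) = finComp v g * finComp v h := by
  rw [finComp_eq_map333, finComp_eq_map333, finComp_eq_map333, Units.val_mul, Matrix.map_mul]

theorem finComp_one333 (v : HeightOneSpectrum (𝓞 K)) : finComp v (1 : G K) = 1 := by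
  rw [finComp_eq_map333, Units.val_one]
  exact Matrix.map_one _ (map_zero _) (map_one _)

theorem trivAtInf_iff333 (w : InfinitePlace K) (g : G K) :
    TrivAtInf w g ↔ (g : Matrix (Fin 2) (Fin 2) (Adl K)).map (evI333 w) = 1 := by
  unfold TrivAtInf
  constructor
  · intro h
    exact Matrix.ext fun i j => h i j
  · intro h i j
    exact congrFun (congrFun h i) j

theorem trivAtFin_iff333 (v : HeightOneSpectrum (𝓞 K)) (g : G K) :
    TrivAtFin v g ↔ (g : Matrix (Fin 2) (Fin 2) (Adl K)).map (evF333 v) = 1 :=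
  Iff.rfl

/-- The inverse of an element which is trivial at `v` is trivial at `v`. -/
theorem trivAtFin_inv333 {v : HeightOneSpectrum (𝓞 K)} {g : G K} (h : TrivAtFin v g) :
    TrivAtFin v g⁻¹ := by
  have h1 : finComp v (g * g⁻¹) = finComp v g * finComp v g⁻¹ := finComp_mul333 v g g⁻¹
  rw [mul_inv_cancel, finComp_one333] at h1
  unfold TrivAtFin at h ⊢
  rw [h, one_mul] at h1
  exact h1.symm

/-! ## 2. Local elements commute with elements trivial at the place -/

/-- An element supported at the finite place `v` commutes with an element trivial at `v`. -/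
theorem comm_of_local_triv333 {v : HeightOneSpectrum (𝓞 K)} {k q : G K}
    (hk : IsLocalAtFin v k) (hq : TrivAtFin v q) : k * q = q * k := by
  apply Units.ext
  rw [Units.val_mul, Units.val_mul]
  apply adeleMatrix_ext333
  · intro w
    rw [Matrix.map_mul, Matrix.map_mul, (trivAtInf_iff333 w k).1 (hk.1 w), one_mul, mul_one]
  · intro v'
    rw [Matrix.map_mul, Matrix.map_mul]
    by_cases h : v' = v
    · subst h
      rw [(trivAtFin_iff333 v' q).1 hq, one_mul, mul_one]
    · rw [(trivAtFin_iff333 v' k).1 (hk.2 v' h), one_mul, mul_one]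

/-! ## 3. For `v ∤ 𝔫` the closure of `𝔫` in `K_v` contains `𝒪_v` -/

/-- `𝓞 K` is dense in `𝒪_v`: every neighbourhood of an element of `𝒪_v` contains a global
integer. -/
theorem exists_int_mem_nhds333 (v : HeightOneSpectrum (𝓞 K)) {x : v.adicCompletion K}
    (hx : Valued.v x ≤ 1) {t : Set (v.adicCompletion K)} (ht : t ∈ nhds x) :
    ∃ a : 𝓞 K, ((algebraMap (𝓞 K) K a : K) : v.adicCompletion K) ∈ t := by
  -- the unit ball around `x`
  have hB : {z : v.adicCompletion K | Valued.v (z - x) < 1} ∈ nhds x := by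
    rw [Valued.mem_nhds]
    refine ⟨1, fun w hw => ?_⟩
    simpa using hw
  have hint : interior t ∩ {z : v.adicCompletion K | Valued.v (z - x) < 1} ∈ nhds x :=
    Filter.inter_mem (interior_mem_nhds.mpr ht) hB
  have hx' : x ∈ closure (Set.range (algebraMap K (v.adicCompletion K))) := by
    rw [(denseRange_algebraMap (K := K) v).closure_range]; exact Set.mem_univ x
  obtain ⟨_, ⟨hkt, hkB⟩, ⟨k, rfl⟩⟩ := mem_closure_iff_nhds.mp hx' _ hint
  have hk' : Valued.v (algebraMap K (v.adicCompletion K) k - x) < 1 := hkB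
  have hk1 : v.valuation K k ≤ 1 := by
    rw [← valuedAdicCompletion_eq_valuation']
    have : ((k : K) : v.adicCompletion K) = (algebraMap K (v.adicCompletion K) k - x) + x := by
      have h1 : ((k : K) : v.adicCompletion K) = algebraMap K (v.adicCompletion K) k := rfl
      rw [h1]; ring
    rw [this]
    exact le_trans (Valuation.map_add _ _ _) (max_le hk'.le hx)
  -- a ball around `k` inside `interior t`
  have htk : interior t ∈ nhds (algebraMap K (v.adicCompletion K) k) :=
    isOpen_interior.mem_nhds hkt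
  rw [Valued.mem_nhds] at htk
  obtain ⟨γ, hγ⟩ := htk
  have hγ0 : MonoidWithZeroHom.ValueGroup₀.embedding γ.1 ≠ 0 := by
    intro h
    have h1 := (MonoidWithZeroHom.ValueGroup₀.embedding_strictMono
      (f := MonoidWithZeroHom.ofClass (Valued.v : Valuation (v.adicCompletion K) _))).injective
      (h.trans (map_zero _).symm)
    exact γ.ne_zero h1
  obtain ⟨a, ha⟩ := exists_valuation_sub_lt_of_integer v hk1 (Units.mk0 _ hγ0)
  refine ⟨a, interior_subset (hγ ?_)⟩
  show (Valued.v : Valuation (v.adicCompletion K) _).restrict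
    (((algebraMap (𝓞 K) K a : K) : v.adicCompletion K) - algebraMap K (v.adicCompletion K) k)
      < γ.1
  rw [Valuation.restrict_lt_iff_lt_embedding]
  have e : ((algebraMap (𝓞 K) K a : K) : v.adicCompletion K)
      - algebraMap K (v.adicCompletion K) k
      = ((algebraMap (𝓞 K) K a - k : K) : v.adicCompletion K) :=
    (map_sub (algebraMap K (v.adicCompletion K)) _ _).symm
  rw [e, valuedAdicCompletion_eq_valuation']
  simpa using ha

/-- For `v ∤ 𝔫` the ideal `𝔫` is dense in `𝒪_v`. -/
theorem mem_idealClosure_of_int333 {𝔫 : Ideal (𝓞 K)} {v : HeightOneSpectrum (𝓞 K)}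
    (hv : ¬ v.asIdeal ∣ 𝔫) {x : v.adicCompletion K} (hx : Valued.v x ≤ 1) :
    x ∈ idealClosure 𝔫 v := by
  -- an element `s ∈ 𝔫` which is a unit at `v`
  have hnle : ¬ 𝔫 ≤ v.asIdeal := fun h => hv (Ideal.dvd_iff_le.mpr h)
  obtain ⟨s, hs𝔫, hsv⟩ := Set.not_subset.mp hnle
  have hsval : Valued.v (((algebraMap (𝓞 K) K s : K) : v.adicCompletion K)) = 1 := by
    rw [valuedAdicCompletion_eq_valuation', valuation_eq_one_iff_notMem]
    exact hsv
  set S : v.adicCompletion K := ((algebraMap (𝓞 K) K s : K) : v.adicCompletion K) with hS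
  have hS0 : S ≠ 0 := by
    intro h
    rw [h, map_zero] at hsval
    exact zero_ne_one hsval
  unfold idealClosure
  rw [mem_closure_iff_nhds]
  intro t ht
  have hxs : Valued.v (x / S) ≤ 1 := by
    rw [map_div₀, hsval, div_one]; exact hx
  -- continuity of `z ↦ z * S` at `x / S`
  have hcont : Filter.Tendsto (fun z : v.adicCompletion K => z * S) (nhds (x / S)) (nhds x) := by
    have h1 : Continuous (fun z : v.adicCompletion K => z * S) := continuous_mul_const S
    have h2 := h1.tendsto (x / S)
    rwa [div_mul_cancel₀ x hS0] at h2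
  obtain ⟨a, ha⟩ := exists_int_mem_nhds333 v hxs (hcont ht)
  refine ⟨((algebraMap (𝓞 K) K a : K) : v.adicCompletion K) * S, ha, a * s,
    𝔫.mul_mem_left a hs𝔫, ?_⟩
  show algebraMap K (v.adicCompletion K) (algebraMap (𝓞 K) K (a * s))
    = algebraMap K (v.adicCompletion K) (algebraMap (𝓞 K) K a)
      * algebraMap K (v.adicCompletion K) (algebraMap (𝓞 K) K s)
  rw [map_mul, map_mul]

theorem zero_mem_idealClosure333 (𝔫 : Ideal (𝓞 K)) (v : HeightOneSpectrum (𝓞 K)) :
    (0 : v.adicCompletion K) ∈ idealClosure 𝔫 v := by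
  apply subset_closure
  refine ⟨0, 𝔫.zero_mem, ?_⟩
  simp

theorem val_one_entry_le333 (v : HeightOneSpectrum (𝓞 K)) (i j : Fin 2) :
    Valued.v ((1 : Matrix (Fin 2) (Fin 2) (v.adicCompletion K)) i j) ≤ 1 := by
  by_cases hij : i = j
  · subst hij; simp
  · simp [hij]

/-- An element supported at `v ∤ 𝔫`, integral with integral inverse at `v`, lies in `U(𝔫)`. -/
theorem inLevelGroup_of_local_int333 {𝔫 : Ideal (𝓞 K)} {v : HeightOneSpectrum (𝓞 K)}
    (hv : ¬ v.asIdeal ∣ 𝔫) {k : G K} (hloc : IsLocalAtFin v k) (hint : IsIntegralAt v k)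
    (hint' : IsIntegralAt v k⁻¹) : InLevelGroup 𝔫 k := by
  refine ⟨hloc.1, ?_⟩
  intro v' i j
  by_cases h : v' = v
  · subst h
    constructor
    · apply mem_idealClosure_of_int333 hv
      rw [Matrix.sub_apply]
      exact le_trans (Valuation.map_sub _ _ _) (max_le (hint i j) (val_one_entry_le333 v' i j))
    · apply mem_idealClosure_of_int333 hv
      rw [Matrix.sub_apply]
      exact le_trans (Valuation.map_sub _ _ _) (max_le (hint' i j) (val_one_entry_le333 v' i j))
  · have e1 : finComp v' k = 1 := hloc.2 v' h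
    have e2 : finComp v' k⁻¹ = 1 := trivAtFin_inv333 (hloc.2 v' h)
    rw [e1, e2, sub_self]
    exact ⟨zero_mem_idealClosure333 𝔫 v', zero_mem_idealClosure333 𝔫 v'⟩

/-! ## 4. The leaf -/

/-- (i) right invariance under `U(𝔫)` gives right invariance under `GL₂(𝒪_v)` for `v ∤ 𝔫`. -/
theorem isKv_of_isLevel333 (𝔫 : Ideal (𝓞 K)) (v : HeightOneSpectrum (𝓞 K)) (f : G K → ℂ)
    (hv : ¬ v.asIdeal ∣ 𝔫) (hf : IsLevel 𝔫 f) : IsKv v f :=
  fun k hloc hint hint' g => hf k (inLevelGroup_of_local_int333 hv hloc hint hint') g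

/-- (ii) right translation by an element trivial at `v` preserves `IsKv v`. -/
theorem isKv_rt333 (v : HeightOneSpectrum (𝓞 K)) (q : G K) (f : G K → ℂ)
    (hq : TrivAtFin v q) (hf : IsKv v f) : IsKv v (rt q f) := by
  intro k hloc hint hint' g
  show f (g * k * q) = f (g * q)
  rw [mul_assoc, comm_of_local_triv333 hloc hq, ← mul_assoc]
  exact hf k hloc hint hint' (g * q)

/-- (iii) right translation by an element trivial at `v` preserves `IsHeckeEigenAt` at `v`. -/
theorem isHeckeEigenAt_rt333 (v : HeightOneSpectrum (𝓞 K)) (q : G K) (f : G K → ℂ) (a b : ℂ)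
    (hq : TrivAtFin v q) (hf : IsHeckeEigenAt f v a b) : IsHeckeEigenAt (rt q f) v a b := by
  refine ⟨fun H hH g => ?_, fun z hz g => ?_⟩
  · have e : ∀ h ∈ H, rt q f (g * h) = f (g * q * h) := by
      intro h hh
      show f (g * h * q) = f (g * q * h)
      rw [mul_assoc, comm_of_local_triv333 (hH.2.1 h hh).1 hq, ← mul_assoc]
    rw [Finset.sum_congr rfl e]
    exact hf.1 H hH (g * q)
  · show f (g * z * q) = b * f (g * q)
    rw [mul_assoc, comm_of_local_triv333 hz.1 hq, ← mul_assoc]
    exact hf.2 z hz (g * q)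

/-- **T2.10.16 = B.5 BOOK-KEEPING**, for every number field. -/
theorem bookC333 (K : Type) [Field K] [NumberField K] : BookC K :=
  ⟨isKv_of_isLevel333, isKv_rt333, isHeckeEigenAt_rt333⟩

/-- The registry leaf, verbatim. -/
theorem leaf16_333 (K : Type) [Field K] [NumberField K] : Leaf16 K := bookC333 K

end Fermat.Agent.LT.T2.H333

end
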